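import Mathlib.NumberTheory.Zsqrtd.GaussianInt
import Mathlib.Analysis.Complex.Basic
import Mathlib.Algebra.Order.Floor.Ring

/-!
# Gaussian integers in discs

An annulus of width one and radius `R` holds at most `24 (R + 1)` of them, so translating a disc
changes the number of multiples of `g` in it by at most `24 (R / ‖g‖ + 1)`.
-/

set_option autoImplicit false

noncomputable section

open Finset
open scoped Classical

namespace FA.GelfondGauss

local notation "ℤ[i]" => GaussianInt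

/-- The Gaussian integers of modulus at most `R`. -/
def gdisc (R : ℝ) : Finset ℤ[i] :=
  ((Icc (-⌊R⌋) ⌊R⌋ ×ˢ Icc (-⌊R⌋) ⌊R⌋).image fun p : ℤ × ℤ => (⟨p.1, p.2⟩ : ℤ[i])).filter
    fun u => ‖(u : ℂ)‖ ≤ R

theorem mem_gdisc {R : ℝ} {u : ℤ[i]} : u ∈ gdisc R ↔ ‖(u : ℂ)‖ ≤ R := by
  refine ⟨fun h => (Finset.mem_filter.1 h).2, fun h => Finset.mem_filter.2 ⟨?_, h⟩⟩
  have hc : ∀ z : ℤ, |(z : ℝ)| ≤ R → z ∈ Icc (-⌊R⌋) ⌊R⌋ := fun z hz => by
    obtain ⟨h1, h2⟩ := abs_le.1 hz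
    have h3 : -z ≤ ⌊R⌋ := Int.le_floor.2 (by push_cast; linarith)
    exact Finset.mem_Icc.2 ⟨by omega, Int.le_floor.2 h2⟩
  exact Finset.mem_image.2 ⟨(u.re, u.im), Finset.mem_product.2
    ⟨hc _ (by simpa using (Complex.abs_re_le_norm (u : ℂ)).trans h),
      hc _ (by simpa using (Complex.abs_im_le_norm (u : ℂ)).trans h)⟩, rfl⟩

theorem zero_mem_gdisc {R : ℝ} (hR : 0 ≤ R) : (0 : ℤ[i]) ∈ gdisc R := by
  rw [mem_gdisc]
  simpa using hR

theorem gdisc_mono {R R' : ℝ} (h : R ≤ R') : gdisc R ⊆ gdisc R' := fun _ hu =>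
  mem_gdisc.2 ((mem_gdisc.1 hu).trans h)

theorem sq_norm_cast (u : ℤ[i]) : ‖(u : ℂ)‖ ^ 2 = (u.re : ℝ) ^ 2 + (u.im : ℝ) ^ 2 := by
  rw [Complex.sq_norm, Complex.normSq_apply, GaussianInt.intCast_re, GaussianInt.intCast_im]
  ring

/-- An annulus of width one. -/
theorem card_gdisc_add_one {R : ℝ} (hR : 0 ≤ R) :
    ((gdisc (R + 1)).card : ℝ) ≤ (gdisc R).card + 24 * (R + 1) := by
  classical
  set D := gdisc (R + 1) \ gdisc R with hD
  have hcard : (gdisc (R + 1)).card = (gdisc R).card + D.card := by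
    rw [hD, Finset.card_sdiff_of_subset (gdisc_mono (by linarith))]
    have := Finset.card_le_card (gdisc_mono (show R ≤ R + 1 by linarith))
    omega
  have hmem : ∀ u ∈ D, R ^ 2 < (u.re : ℝ) ^ 2 + (u.im : ℝ) ^ 2 ∧
      (u.re : ℝ) ^ 2 + (u.im : ℝ) ^ 2 ≤ (R + 1) ^ 2 := fun u hu => by
    rw [hD, Finset.mem_sdiff, mem_gdisc, mem_gdisc, not_le] at hu
    rw [← sq_norm_cast]
    exact ⟨pow_lt_pow_left₀ hu.2 hR two_ne_zero, pow_le_pow_left₀ (norm_nonneg _) hu.1 2⟩
  set A := D.filter fun u => |u.re| ≤ |u.im| with hA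
  set M := ⌊R + 1⌋ with hM
  have hAle : A.card ≤
      ((Icc (-M) M) ×ˢ ((Finset.univ : Finset Bool) ×ˢ ({0, 1} : Finset ℤ))).card := by
    refine Finset.card_le_card_of_injOn (fun u => (u.re, decide (0 ≤ u.im), u.im % 2))
      (fun u hu => ?_) ?_
    · rw [Finset.mem_coe, hA, Finset.mem_filter] at hu
      have hu' := hmem u hu.1
      refine Finset.mem_coe.2 (Finset.mem_product.2
        ⟨?_, Finset.mem_product.2 ⟨Finset.mem_univ _, ?_⟩⟩)
      · have h1 : |(u.re : ℝ)| ≤ R + 1 :=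
          abs_le_of_sq_le_sq (by nlinarith [sq_nonneg (u.im : ℝ)]) (by linarith)
        obtain ⟨h2, h3⟩ := abs_le.1 h1
        have h4 : -u.re ≤ M := Int.le_floor.2 (by push_cast; linarith)
        exact Finset.mem_Icc.2 ⟨show -M ≤ u.re by omega, Int.le_floor.2 h3⟩
      · have := Int.emod_two_eq u.im
        simpa using this
    · intro u hu v hv huv
      rw [Finset.mem_coe, hA, Finset.mem_filter] at hu hv
      simp only [Prod.mk.injEq, decide_eq_decide] at huv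
      obtain ⟨hre, hsign, hpar⟩ := huv
      refine Zsqrtd.ext hre ?_
      by_contra hne
      wlog hlt : |u.im| < |v.im| generalizing u v
      · refine this hv hu hre.symm hsign.symm hpar.symm (fun h => hne h.symm) ?_
        rcases lt_or_eq_of_le (not_lt.1 hlt) with h | h
        · exact h
        · exfalso; apply hne; grind
      obtain ⟨hlo, -⟩ := hmem u hu.1
      obtain ⟨-, hhi⟩ := hmem v hv.1
      rw [← hre] at hhi
      have h2 : |u.im| + 2 ≤ |v.im| := by grind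
      have hx : (u.re : ℝ) ^ 2 ≤ (|u.im| : ℤ) ^ 2 := by
        rw [Int.cast_abs, sq_abs]
        exact sq_le_sq.2 (by exact_mod_cast hu.2)
      have h2' : ((|u.im| : ℤ) : ℝ) + 2 ≤ (|v.im| : ℤ) := by exact_mod_cast h2
      have h0 : (0 : ℝ) ≤ (|u.im| : ℤ) := by exact_mod_cast abs_nonneg _
      have h3 := pow_le_pow_left₀ (by linarith : (0 : ℝ) ≤ ((|u.im| : ℤ) : ℝ) + 2) h2' 2
      simp only [Int.cast_abs, sq_abs] at hx h3 h0
      have e := sq_abs (u.im : ℝ)
      nlinarith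
  have hB : (D \ A).card ≤ A.card := by
    refine Finset.card_le_card_of_injOn (fun u => (⟨u.im, u.re⟩ : ℤ[i])) (fun u hu => ?_)
      (fun u _ v _ h => by
        simp only [Zsqrtd.mk.injEq] at h
        exact Zsqrtd.ext h.2 h.1)
    rw [Finset.mem_coe, hA, Finset.mem_sdiff, Finset.mem_filter, not_and, not_le] at hu
    obtain ⟨h1, h2⟩ := hu
    have h2 := h2 h1
    refine Finset.mem_coe.2 (Finset.mem_filter.2 ⟨?_, h2.le⟩)
    rw [hD, Finset.mem_sdiff, mem_gdisc, mem_gdisc] at h1 ⊢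
    have e : ‖((⟨u.im, u.re⟩ : ℤ[i]) : ℂ)‖ = ‖(u : ℂ)‖ := by
      rw [← sq_eq_sq₀ (norm_nonneg _) (norm_nonneg _), sq_norm_cast, sq_norm_cast]
      ring
    rwa [e]
  rw [Finset.card_product, Finset.card_product, Finset.card_univ, Fintype.card_bool,
    Int.card_Icc, Finset.card_pair (by norm_num)] at hAle
  have hsplit := Finset.card_sdiff_add_card_eq_card
    (Finset.filter_subset (fun u => |u.re| ≤ |u.im|) D)
  rw [← hA] at hsplit
  have hM0 : 0 ≤ M := Int.floor_nonneg.2 (by linarith)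
  have hMle : (M : ℝ) ≤ R + 1 := Int.floor_le _
  have hnat : (D.card : ℤ) ≤ 8 * (2 * M + 1) := by omega
  have hreal : (D.card : ℝ) ≤ 8 * (2 * (M : ℝ) + 1) := by exact_mod_cast hnat
  rw [hcard]
  push_cast
  linarith

/-- At least `r² / 4` lattice points. -/
theorem le_card_gdisc (r : ℕ) : (r : ℝ) ^ 2 / 4 ≤ (gdisc r).card := by
  classical
  set t := ⌊(r : ℝ) / 2⌋ with ht
  have ht0 : 0 ≤ t := Int.floor_nonneg.2 (by positivity)
  have h : (Icc (-t) t ×ˢ Icc (-t) t).card ≤ (gdisc r).card := by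
    refine Finset.card_le_card_of_injOn (fun p : ℤ × ℤ => (⟨p.1, p.2⟩ : ℤ[i])) (fun p hp => ?_)
      (fun p _ q _ h => by
        simp only [Zsqrtd.mk.injEq] at h
        exact Prod.ext h.1 h.2)
    rw [Finset.mem_coe, Finset.mem_product, Finset.mem_Icc, Finset.mem_Icc] at hp
    rw [Finset.mem_coe, mem_gdisc, ← sq_le_sq₀ (norm_nonneg _) (Nat.cast_nonneg _), sq_norm_cast]
    have hb : ∀ z : ℤ, -t ≤ z → z ≤ t → (z : ℝ) ^ 2 ≤ ((r : ℝ) / 2) ^ 2 := fun z h1 h2 => by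
      have h1' : -(t : ℝ) ≤ z := by exact_mod_cast h1
      have h2' : (z : ℝ) ≤ t := by exact_mod_cast h2
      have := Int.floor_le ((r : ℝ) / 2)
      exact sq_le_sq' (by linarith) (by linarith)
    have := hb p.1 hp.1.1 hp.1.2
    have := hb p.2 hp.2.1 hp.2.2
    nlinarith [sq_nonneg (r : ℝ)]
  rw [Finset.card_product, Int.card_Icc] at h
  have e : (((t + 1 - -t).toNat : ℕ) : ℝ) = 2 * (t : ℝ) + 1 := by
    rw [← Int.cast_natCast, Int.toNat_of_nonneg (by omega)]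
    push_cast
    ring
  have h' : (2 * (t : ℝ) + 1) * (2 * (t : ℝ) + 1) ≤ (gdisc r).card := by
    rw [← e]
    exact_mod_cast h
  have h1 := Int.lt_floor_add_one ((r : ℝ) / 2)
  rw [← ht] at h1
  have ht' : (0 : ℝ) ≤ t := by exact_mod_cast ht0
  have := pow_le_pow_left₀ (by positivity : (0 : ℝ) ≤ (r : ℝ) / 2)
    (show (r : ℝ) / 2 ≤ 2 * (t : ℝ) + 1 by linarith) 2
  nlinarith

theorem one_le_norm {u : ℤ[i]} (hu : u ≠ 0) : 1 ≤ ‖(u : ℂ)‖ := by
  have h : (1 : ℤ) ≤ Zsqrtd.norm u := GaussianInt.norm_pos.2 hu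
  have h' : (1 : ℝ) ≤ (Zsqrtd.norm u : ℝ) := by exact_mod_cast h
  rw [GaussianInt.intCast_real_norm, Complex.normSq_eq_norm_sq] at h'
  nlinarith [norm_nonneg (u : ℂ)]

theorem norm_le_of_dvd {g w : ℤ[i]} (h : g ∣ w) (hw : w ≠ 0) : ‖(g : ℂ)‖ ≤ ‖(w : ℂ)‖ := by
  obtain ⟨y, rfl⟩ := h
  rw [GaussianInt.toComplex_mul, norm_mul]
  exact le_mul_of_one_le_right (norm_nonneg _) (one_le_norm (right_ne_zero_of_mul hw))

/-- The multiples of `g` in a translated disc, against those in the centred one. -/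
theorem card_translate_le {g : ℤ[i]} (hg : g ≠ 0) {r : ℝ} (hr : 0 ≤ r) {k : ℤ[i]}
    (hk : k ∈ gdisc r) :
    ((((gdisc r).erase k).filter fun x => g ∣ k - x).card : ℝ) ≤
      (((gdisc r).erase 0).filter fun w => g ∣ w).card + 24 * (r / ‖(g : ℂ)‖ + 1) := by
  classical
  have hgn : (0 : ℝ) < ‖(g : ℂ)‖ := norm_pos_iff.2 (by simpa using hg)
  have hgC : (g : ℂ) ≠ 0 := norm_pos_iff.1 hgn
  set R := r / ‖(g : ℂ)‖ with hR
  have hR0 : 0 ≤ R := div_nonneg hr hgn.le
  have h1 : ((gdisc r).filter fun x => g ∣ k - x).card ≤ (gdisc (R + 1)).card := by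
    refine Finset.card_le_card_of_injOn (fun x => k / g - (k - x) / g) (fun x hx => ?_) ?_
    · rw [Finset.mem_coe, Finset.mem_filter, mem_gdisc] at hx
      obtain ⟨hxr, y, hy⟩ := hx
      simp only [Finset.mem_coe, mem_gdisc, hy, mul_div_cancel_left₀ _ hg]
      have e : (y : ℂ) = ((k : ℂ) - x) / g := by
        rw [← GaussianInt.toComplex_sub, hy, GaussianInt.toComplex_mul, mul_div_cancel_left₀ _ hgC]
      rw [GaussianInt.toComplex_sub, e, show ((k / g : ℤ[i]) : ℂ) - ((k : ℂ) - x) / g =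
        (x : ℂ) / g - ((k : ℂ) / g - ((k / g : ℤ[i]) : ℂ)) by ring]
      refine (norm_sub_le _ _).trans (add_le_add ?_ ?_)
      · rw [norm_div]
        exact div_le_div_of_nonneg_right hxr hgn.le
      · have := GaussianInt.normSq_div_sub_div_lt_one k g
        rw [Complex.normSq_eq_norm_sq] at this
        nlinarith [norm_nonneg ((k : ℂ) / g - ((k / g : ℤ[i]) : ℂ))]
    · intro x hx x' hx' h
      rw [Finset.mem_coe, Finset.mem_filter] at hx hx'
      obtain ⟨y, hy⟩ := hx.2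
      obtain ⟨y', hy'⟩ := hx'.2
      simp only [hy, hy', mul_div_cancel_left₀ _ hg, sub_right_inj] at h
      rw [← h, ← hy] at hy'
      exact (sub_right_inj.1 hy').symm
  have h2 : (gdisc R).card ≤ ((gdisc r).filter fun w => g ∣ w).card := by
    refine Finset.card_le_card_of_injOn (fun y => g * y) (fun y hy => ?_)
      (fun _ _ _ _ h => mul_left_cancel₀ hg h)
    rw [Finset.mem_coe, mem_gdisc, hR, le_div_iff₀ hgn] at hy
    rw [Finset.mem_coe, Finset.mem_filter, mem_gdisc, GaussianInt.toComplex_mul, norm_mul,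
      mul_comm]
    exact ⟨hy, dvd_mul_right g y⟩
  rw [Finset.filter_erase, Finset.filter_erase]
  rw [Finset.card_erase_of_mem (Finset.mem_filter.2 ⟨hk, by simp⟩),
    Finset.card_erase_of_mem (Finset.mem_filter.2 ⟨zero_mem_gdisc hr, dvd_zero g⟩)]
  have p1 : 1 ≤ ((gdisc r).filter fun x => g ∣ k - x).card :=
    Finset.card_pos.2 ⟨k, Finset.mem_filter.2 ⟨hk, by simp⟩⟩
  have p2 : 1 ≤ ((gdisc r).filter fun w => g ∣ w).card :=
    Finset.card_pos.2 ⟨0, Finset.mem_filter.2 ⟨zero_mem_gdisc hr, dvd_zero g⟩⟩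
  rw [Nat.cast_sub p1, Nat.cast_sub p2]
  have h3 := card_gdisc_add_one hR0
  have h1' := Nat.cast_le (α := ℝ).2 h1
  have h2' := Nat.cast_le (α := ℝ).2 h2
  push_cast
  linarith

end FA.GelfondGauss

end
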