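import Mathlib.NumberTheory.Primorial
import Mathlib.Algebra.Order.Field.GeomSum
import Mathlib.Analysis.PSeries
import Mathlib.Analysis.Complex.Exponential
import Mathlib.RingTheory.UniqueFactorizationDomain.Multiplicity
import Mathlib.RingTheory.PrincipalIdealDomain
import Fermat.Agent.GelfondGauss.Lattice

/-!
# A common denominator

`∏_{x ≠ k} (k - x)` over the disc of radius `r` divides `F P ^ 288`, with `F` the product over
`0 < |w| ≤ r` and `P = ∏_{s ≤ 2 r} (4 r² / s²)#`: the exponents of a prime `π` differ by at most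
`288 ⌊2 r / ‖π‖⌋`.
-/

set_option autoImplicit false

noncomputable section

open Finset
open scoped Classical

namespace FA.GelfondGauss

local notation "ℤ[i]" => GaussianInt

/-- The product over the punctured disc. -/
def centralProd (r : ℕ) : ℤ[i] := ∏ w ∈ (gdisc r).erase 0, w

/-- The rational factor. -/
def primPart (r : ℕ) : ℕ := ∏ s ∈ Icc 1 (2 * r), primorial (4 * r ^ 2 / s ^ 2)

/-- The denominator. -/
def denom (r : ℕ) : ℤ[i] := centralProd r * (primPart r : ℤ[i]) ^ 288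

theorem sq_norm_prime {π : ℤ[i]} (hπ : Prime π) : 2 ≤ ‖(π : ℂ)‖ ^ 2 := by
  have h0 : 0 < Zsqrtd.norm π := GaussianInt.norm_pos.2 hπ.ne_zero
  have h1 : (Zsqrtd.norm π).natAbs ≠ 1 := fun h => hπ.not_isUnit (Zsqrtd.norm_eq_one_iff.1 h)
  have h2 : (2 : ℤ) ≤ Zsqrtd.norm π := by omega
  have h3 : (2 : ℝ) ≤ (Zsqrtd.norm π : ℝ) := by exact_mod_cast h2
  rwa [GaussianInt.intCast_real_norm, Complex.normSq_eq_norm_sq] at h3

theorem le_eight_mul {π : ℤ[i]} (hπ : Prime π) {r m : ℕ}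
    (h : ‖(π : ℂ)‖ ^ m ≤ 2 * r) : m ≤ 8 * r := by
  have hρ : (5 : ℝ) / 4 ≤ ‖(π : ℂ)‖ := by nlinarith [sq_norm_prime hπ, norm_nonneg (π : ℂ)]
  have hb := one_add_mul_le_pow (show (-2 : ℝ) ≤ 1 / 4 by norm_num) m
  have h2 := pow_le_pow_left₀ (by norm_num : (0 : ℝ) ≤ 5 / 4) hρ m
  norm_num at hb
  have : (m : ℝ) ≤ ((8 * r : ℕ) : ℝ) := by push_cast; linarith
  exact_mod_cast this

theorem emultiplicity_eq_count {π w : ℤ[i]} (hπ : Prime π) (hw : w ≠ 0) {r : ℕ}
    (hb : ‖(w : ℂ)‖ ≤ 2 * r) :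
    emultiplicity π w = ((((Icc 1 (8 * r)).filter fun m => π ^ m ∣ w).card : ℕ) : ℕ∞) := by
  have hfin : FiniteMultiplicity π w := FiniteMultiplicity.of_prime_left hπ hw
  rw [hfin.emultiplicity_eq_multiplicity]
  norm_cast
  have hle : multiplicity π w ≤ 8 * r := le_eight_mul hπ (by
    rw [← norm_pow, ← map_pow]
    exact (norm_le_of_dvd (pow_multiplicity_dvd π w) hw).trans hb)
  have e : (Icc 1 (8 * r)).filter (fun m => π ^ m ∣ w) = Icc 1 (multiplicity π w) := by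
    ext m
    simp only [Finset.mem_filter, Finset.mem_Icc, hfin.pow_dvd_iff_le_multiplicity]
    omega
  rw [e, Nat.card_Icc]
  omega

theorem emultiplicity_prod_eq {ι : Type*} {π : ℤ[i]} (hπ : Prime π) (S : Finset ι) (f : ι → ℤ[i])
    {r : ℕ} (h0 : ∀ i ∈ S, f i ≠ 0) (hb : ∀ i ∈ S, ‖(f i : ℂ)‖ ≤ 2 * r) :
    emultiplicity π (∏ i ∈ S, f i) =
      ((∑ m ∈ Icc 1 (8 * r), (S.filter fun i => π ^ m ∣ f i).card : ℕ) : ℕ∞) := by
  rw [Finset.emultiplicity_prod hπ,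
    Finset.sum_congr rfl fun i hi => emultiplicity_eq_count hπ (h0 i hi) (hb i hi)]
  simp only [Finset.card_filter]
  rw [Finset.sum_comm]
  push_cast
  rfl

theorem dvd_natCast_norm (π : ℤ[i]) : π ∣ ((Zsqrtd.norm π).natAbs : ℤ[i]) := by
  rw [GaussianInt.natCast_natAbs_norm, Zsqrtd.norm_eq_mul_conj]
  exact dvd_mul_right _ _

/-- A prime with `‖π‖ s ≤ 2 r` divides the `s`-th primorial. -/
theorem dvd_primorial_cast {π : ℤ[i]} (hπ : Prime π) {r s : ℕ} (hs : 1 ≤ s)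
    (h : ‖(π : ℂ)‖ * s ≤ 2 * r) : π ∣ ((primorial (4 * r ^ 2 / s ^ 2) : ℕ) : ℤ[i]) := by
  set N := (Zsqrtd.norm π).natAbs with hN
  have hN0 : N ≠ 0 := by
    have := GaussianInt.norm_pos.2 hπ.ne_zero
    omega
  have hNle : N ≤ 4 * r ^ 2 / s ^ 2 := by
    rw [Nat.le_div_iff_mul_le (by positivity)]
    have h' := pow_le_pow_left₀ (by positivity) h 2
    rw [mul_pow] at h'
    have e : (N : ℝ) = ‖(π : ℂ)‖ ^ 2 := by
      rw [hN, GaussianInt.natCast_natAbs_norm, GaussianInt.intCast_real_norm,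
        Complex.normSq_eq_norm_sq]
    have : ((N * s ^ 2 : ℕ) : ℝ) ≤ ((4 * r ^ 2 : ℕ) : ℝ) := by
      push_cast
      rw [e]
      linarith
    exact_mod_cast this
  have hd := dvd_natCast_norm π
  rw [← hN, ← Nat.prod_primeFactorsList hN0, ← Nat.coe_castRingHom, map_list_prod] at hd
  obtain ⟨q, hq, hπq⟩ := hπ.dvd_prod_iff.1 hd
  obtain ⟨p, hp, rfl⟩ := List.mem_map.1 hq
  have hp' := Nat.prime_of_mem_primeFactorsList hp
  exact hπq.trans (Nat.cast_dvd_cast (hp'.dvd_primorial_iff.2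
    ((Nat.le_of_mem_primeFactorsList hp).trans hNle)))

theorem floor_le_emultiplicity {π : ℤ[i]} (hπ : Prime π) (r : ℕ) :
    ((⌊2 * (r : ℝ) / ‖(π : ℂ)‖⌋₊ : ℕ) : ℕ∞) ≤ emultiplicity π (primPart r : ℤ[i]) := by
  set L := ⌊2 * (r : ℝ) / ‖(π : ℂ)‖⌋₊ with hL
  have hρ := one_le_norm hπ.ne_zero
  have hle : (L : ℝ) * ‖(π : ℂ)‖ ≤ 2 * r :=
    (le_div_iff₀ (by linarith)).1 (Nat.floor_le (by positivity))
  have hL2 : L ≤ 2 * r := by
    have : (L : ℝ) ≤ ((2 * r : ℕ) : ℝ) := by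
      push_cast
      nlinarith [(Nat.cast_nonneg L : (0 : ℝ) ≤ L)]
    exact_mod_cast this
  refine le_emultiplicity_of_pow_dvd ?_
  have e : π ^ L = ∏ _s ∈ Icc 1 L, π := by simp
  rw [e, primPart, Nat.cast_prod]
  refine (Finset.prod_dvd_prod_of_dvd _ _ fun s hs => ?_).trans
    (Finset.prod_dvd_prod_of_subset _ _ _ (Finset.Icc_subset_Icc le_rfl hL2))
  rw [Finset.mem_Icc] at hs
  refine dvd_primorial_cast hπ hs.1 (le_trans ?_ hle)
  rw [mul_comm]
  exact mul_le_mul_of_nonneg_right (Nat.cast_le.2 hs.2) (by linarith)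

/-- The excess of a translate. -/
theorem count_le {π : ℤ[i]} (hπ : Prime π) {r : ℕ} {k : ℤ[i]} (hk : k ∈ gdisc r) :
    ∑ m ∈ Icc 1 (8 * r), (((gdisc r).erase k).filter fun x => π ^ m ∣ k - x).card ≤
      (∑ m ∈ Icc 1 (8 * r), (((gdisc r).erase 0).filter fun w => π ^ m ∣ w).card) +
        288 * ⌊2 * (r : ℝ) / ‖(π : ℂ)‖⌋₊ := by
  set ρ := ‖(π : ℂ)‖ with hρdef
  have hρ2 : 2 ≤ ρ ^ 2 := sq_norm_prime hπ
  have hρ : (4 : ℝ) / 3 ≤ ρ := by nlinarith [norm_nonneg (π : ℂ)]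
  have hr : (0 : ℝ) ≤ r := Nat.cast_nonneg r
  have hterm : ∀ m : ℕ,
      ((((gdisc r).erase k).filter fun x => π ^ m ∣ k - x).card : ℝ) ≤
        (((gdisc r).erase 0).filter fun w => π ^ m ∣ w).card +
          if ρ ^ m ≤ 2 * r then 72 * r * (ρ⁻¹) ^ m else 0 := fun m => by
    split_ifs with h
    · refine (card_translate_le (pow_ne_zero m hπ.ne_zero) hr hk).trans ?_
      rw [map_pow, norm_pow, ← hρdef, inv_pow]
      have hpos : 0 < ρ ^ m := pow_pos (by linarith) m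
      have h1 : (1 : ℝ) ≤ 2 * r * (ρ ^ m)⁻¹ := by
        rw [← div_eq_mul_inv, le_div_iff₀ hpos, one_mul]
        exact h
      rw [div_eq_mul_inv]
      linarith
    · rw [show (((gdisc r).erase k).filter fun x => π ^ m ∣ k - x) = ∅ by
        refine Finset.filter_eq_empty_iff.2 fun x hx hd => h ?_
        obtain ⟨hxk, hxr⟩ := Finset.mem_erase.1 hx
        have := norm_le_of_dvd hd (sub_ne_zero.2 hxk.symm)
        rw [map_pow, norm_pow, GaussianInt.toComplex_sub] at this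
        refine this.trans ((norm_sub_le _ _).trans ?_)
        linarith [mem_gdisc.1 hk, mem_gdisc.1 hxr]]
      simp
  have hsum := Finset.sum_le_sum fun m (_ : m ∈ Icc 1 (8 * r)) => hterm m
  rw [Finset.sum_add_distrib] at hsum
  have hexc : ∑ m ∈ Icc 1 (8 * r), (if ρ ^ m ≤ 2 * r then 72 * (r : ℝ) * (ρ⁻¹) ^ m else 0) ≤
      288 * (⌊2 * (r : ℝ) / ρ⌋₊ : ℕ) := by
    rcases lt_or_ge (2 * (r : ℝ)) ρ with h | h
    · refine le_trans (le_of_eq (Finset.sum_eq_zero fun m hm => ?_)) (by positivity)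
      rw [if_neg (not_le.2 (h.trans_le (le_self_pow₀ (by linarith) (by
        rw [Finset.mem_Icc] at hm; omega))))]
    have hinv : 0 ≤ ρ⁻¹ := inv_nonneg.2 (by linarith)
    calc ∑ m ∈ Icc 1 (8 * r), (if ρ ^ m ≤ 2 * r then 72 * (r : ℝ) * (ρ⁻¹) ^ m else 0)
        ≤ ∑ m ∈ Icc 1 (8 * r), 72 * (r : ℝ) * (ρ⁻¹) ^ m :=
          Finset.sum_le_sum fun m _ => by split_ifs <;> [exact le_rfl; positivity]
      _ ≤ 72 * r * (4 * ρ⁻¹) := by
          rw [← Finset.mul_sum]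
          refine mul_le_mul_of_nonneg_left ?_ (by positivity)
          rw [← Finset.Ico_add_one_right_eq_Icc]
          refine (geom_sum_Ico_le_of_lt_one hinv (inv_lt_one_of_one_lt₀ (by linarith))).trans ?_
          rw [pow_one, div_le_iff₀ (by
            have := inv_lt_one_of_one_lt₀ (show (1 : ℝ) < ρ by linarith)
            linarith)]
          have : ρ⁻¹ ≤ 3 / 4 := by
            rw [inv_le_comm₀ (by linarith) (by norm_num)]
            linarith
          nlinarith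
      _ ≤ 288 * (⌊2 * (r : ℝ) / ρ⌋₊ : ℕ) := by
          have h1 : (1 : ℝ) ≤ 2 * r / ρ := (one_le_div (by linarith)).2 h
          have h2 := Nat.lt_floor_add_one (2 * (r : ℝ) / ρ)
          have h3 : (1 : ℝ) ≤ (⌊2 * (r : ℝ) / ρ⌋₊ : ℕ) := by
            exact_mod_cast (Nat.one_le_floor_iff _).2 h1
          rw [div_eq_mul_inv] at h2 h3 ⊢
          linarith
  have hfinal := hsum.trans (add_le_add le_rfl hexc)
  exact_mod_cast hfinal

theorem dvd_of_emultiplicity_le {a b : ℤ[i]} (ha : a ≠ 0)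
    (h : ∀ π, Prime π → emultiplicity π a ≤ emultiplicity π b) : a ∣ b := by
  induction a using UniqueFactorizationMonoid.induction_on_prime generalizing b with
  | h₁ => exact absurd rfl ha
  | h₂ x hx => exact hx.dvd
  | h₃ x p hx hp ih =>
    have h1 : (1 : ℕ∞) ≤ emultiplicity p b := le_trans (by
      rw [emultiplicity_mul hp]
      refine le_trans (le_of_eq ?_) le_self_add
      exact ((FiniteMultiplicity.of_prime_left hp hp.ne_zero).emultiplicity_self).symm) (h p hp)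
    obtain ⟨b', rfl⟩ : p ∣ b := by
      have := pow_dvd_of_le_emultiplicity (k := 1) (by simpa using h1)
      rwa [pow_one] at this
    refine mul_dvd_mul_left p (ih hx fun π hπ => ?_)
    have h2 := h π hπ
    rw [emultiplicity_mul hπ, emultiplicity_mul hπ] at h2
    exact (ENat.add_le_add_iff_left (finiteMultiplicity_iff_emultiplicity_ne_top.1
      (FiniteMultiplicity.of_prime_left hπ hp.ne_zero))).1 h2

/-- **The denominator works.** -/
theorem prod_dvd_denom {r : ℕ} {T : Finset ℤ[i]} (hT : T ⊆ gdisc r) {k : ℤ[i]} (hk : k ∈ T) :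
    ∏ x ∈ T.erase k, (k - x) ∣ denom r := by
  refine (Finset.prod_dvd_prod_of_subset _ _ _ (Finset.erase_subset_erase k hT)).trans ?_
  have hne : ∀ x ∈ (gdisc r).erase k, k - x ≠ 0 := fun x hx =>
    sub_ne_zero.2 (Finset.ne_of_mem_erase hx).symm
  refine dvd_of_emultiplicity_le (Finset.prod_ne_zero_iff.2 hne) fun π hπ => ?_
  have hbk : ∀ x ∈ (gdisc r).erase k, ‖((k - x : ℤ[i]) : ℂ)‖ ≤ 2 * r := fun x hx => by
    rw [GaussianInt.toComplex_sub]
    refine (norm_sub_le _ _).trans ?_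
    linarith [mem_gdisc.1 (hT hk), mem_gdisc.1 (Finset.mem_of_mem_erase hx)]
  have hb0 : ∀ w ∈ (gdisc r).erase 0, ‖(w : ℂ)‖ ≤ 2 * r := fun w hw => by
    have := mem_gdisc.1 (Finset.mem_of_mem_erase hw)
    linarith [(Nat.cast_nonneg r : (0 : ℝ) ≤ r)]
  rw [denom, emultiplicity_mul hπ, emultiplicity_pow hπ, centralProd,
    emultiplicity_prod_eq hπ _ _ hne hbk,
    emultiplicity_prod_eq hπ _ _ (fun w hw => Finset.ne_of_mem_erase hw) hb0]
  refine (ENat.natCast_le_natCast.2 (count_le hπ (hT hk))).trans ?_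
  push_cast
  exact add_le_add le_rfl (mul_le_mul_of_nonneg_left (floor_le_emultiplicity hπ r) zero_le)

theorem primPart_le (r : ℕ) : (primPart r : ℝ) ≤ Real.exp (16 * (r : ℝ) ^ 2) := by
  have h1 : primPart r ≤ 4 ^ ∑ s ∈ Icc 1 (2 * r), 4 * r ^ 2 / s ^ 2 := by
    rw [primPart, ← Finset.prod_pow_eq_pow_sum]
    exact Finset.prod_le_prod' fun s _ => primorial_le_four_pow _
  have h2 : ((∑ s ∈ Icc 1 (2 * r), 4 * r ^ 2 / s ^ 2 : ℕ) : ℝ) ≤ 8 * (r : ℝ) ^ 2 := by
    rw [Nat.cast_sum]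
    refine (Finset.sum_le_sum fun s _ => Nat.cast_div_le).trans ?_
    push_cast
    simp only [div_eq_mul_inv, ← Finset.mul_sum]
    have h3 := sum_Ioo_inv_sq_le (α := ℝ) 0 (2 * r + 1)
    rw [show Finset.Ioo 0 (2 * r + 1) = Icc 1 (2 * r) by ext; simp; omega] at h3
    simp only [Nat.cast_zero, zero_add, div_one] at h3
    have := mul_le_mul_of_nonneg_left h3 (show (0 : ℝ) ≤ 4 * (r : ℝ) ^ 2 by positivity)
    linarith
  have h4 : (4 : ℝ) ≤ Real.exp 2 := by
    rw [show (2 : ℝ) = 1 + 1 by norm_num, Real.exp_add]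
    nlinarith [Real.add_one_le_exp (1 : ℝ)]
  calc (primPart r : ℝ) ≤ (4 : ℝ) ^ (∑ s ∈ Icc 1 (2 * r), 4 * r ^ 2 / s ^ 2) := by exact_mod_cast h1
    _ ≤ Real.exp 2 ^ (∑ s ∈ Icc 1 (2 * r), 4 * r ^ 2 / s ^ 2) := by gcongr
    _ ≤ Real.exp (16 * (r : ℝ) ^ 2) := by
        rw [← Real.exp_nat_mul]
        exact Real.exp_le_exp.2 (by linarith)

theorem norm_denom_le {r : ℕ} (hr : 1 ≤ r) :
    ‖(denom r : ℂ)‖ ≤ (r : ℝ) ^ (gdisc r).card * Real.exp (4608 * (r : ℝ) ^ 2) := by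
  have hr1 : (1 : ℝ) ≤ r := Nat.one_le_cast.2 hr
  rw [denom, GaussianInt.toComplex_mul, norm_mul, map_pow, map_natCast, norm_pow,
    Complex.norm_natCast, centralProd, map_prod, norm_prod]
  refine mul_le_mul ?_ ?_ (by positivity) (by positivity)
  · refine (Finset.prod_le_prod (fun _ _ => norm_nonneg _)
      fun w hw => mem_gdisc.1 (Finset.mem_of_mem_erase hw)).trans ?_
    rw [Finset.prod_const]
    exact pow_le_pow_right₀ hr1 (Finset.card_erase_le)
  · refine (pow_le_pow_left₀ (Nat.cast_nonneg _) (primPart_le r) 288).trans_eq ?_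
    rw [← Real.exp_nat_mul]
    congr 1
    push_cast
    ring

end FA.GelfondGauss

end
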