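import Mathlib.Analysis.Complex.CauchyIntegral
import Mathlib.Analysis.Calculus.Deriv.Polynomial
import Mathlib.LinearAlgebra.Lagrange
import Fermat.Agent.GelfondGauss.Denominator

/-!
# Gelfond's theorem on integer-valued functions on `ℤ[i]`

The divided differences of `f` over node sets between two consecutive discs, times their
denominator, are Gaussian integers, and by the contour integral less than one for small `a`: so
zero. Hence one polynomial interpolates `f` on all of `ℤ[i]`; and a function of small type vanishing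
there is zero, by the same integral.
-/

set_option autoImplicit false

noncomputable section

open Finset Filter Topology Metric
open scoped Real Classical

namespace FA.GelfondGauss

local notation "ℤ[i]" => GaussianInt

/-- The divided difference. -/
def divDiff (T : Finset ℂ) (f : ℂ → ℂ) : ℂ := ∑ z ∈ T, f z / ∏ x ∈ T.erase z, (z - x)

/-- The divided difference as a contour integral. -/
theorem divDiff_eq_integral {T : Finset ℂ} (hT : T.Nonempty) {f : ℂ → ℂ} (hf : Differentiable ℂ f)
    {R : ℝ} (hR : ∀ x ∈ T, ‖x‖ < R) :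
    divDiff T f = (2 * π * Complex.I : ℂ)⁻¹ • ∮ z in C(0, R), f z / ∏ x ∈ T, (z - x) := by
  have hR0 : 0 ≤ R := by
    obtain ⟨x, hx⟩ := hT
    exact (norm_nonneg x).trans (hR x hx).le
  have hsphere : ∀ z ∈ sphere (0 : ℂ) R, ∀ x ∈ T, z ≠ x := fun z hz x hx e => by
    rw [mem_sphere_zero_iff_norm, e] at hz
    exact (hR x hx).ne hz
  have hid : ∀ z ∈ sphere (0 : ℂ) R, f z / ∏ x ∈ T, (z - x) =
      ∑ x ∈ T, (∏ y ∈ T.erase x, (x - y))⁻¹ * ((z - x)⁻¹ • f z) := fun z hz => by
    have h := congrArg (Polynomial.eval z) (Lagrange.eq_interpolate (f := (1 : Polynomial ℂ))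
      (v := id) (s := T) Function.injective_id.injOn (by
        rw [Polynomial.degree_one]
        exact_mod_cast hT.card_pos))
    rw [Lagrange.eval_interpolate_not_at_node (v := id) _ (hsphere z hz), Lagrange.eval_nodal,
      Polynomial.eval_one] at h
    simp only [id, Polynomial.eval_one, mul_one, Lagrange.nodalWeight, Finset.prod_inv_distrib]
      at h
    have hne : ∏ x ∈ T, (z - x) ≠ 0 :=
      Finset.prod_ne_zero_iff.2 fun x hx => sub_ne_zero.2 (hsphere z hz x hx)
    rw [div_eq_iff hne, Finset.sum_mul]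
    conv_lhs => rw [← mul_one (f z), h, Finset.mul_sum, Finset.mul_sum]
    exact Finset.sum_congr rfl fun x _ => by rw [smul_eq_mul]; ring
  rw [circleIntegral.integral_congr hR0 hid, circleIntegral.integral_fun_sum, Finset.smul_sum]
  · refine Finset.sum_congr rfl fun x hx => ?_
    rw [circleIntegral.integral_const_mul, smul_eq_mul, mul_left_comm, ← smul_eq_mul
      (2 * (π : ℂ) * Complex.I)⁻¹,
      Complex.two_pi_I_inv_smul_circleIntegral_sub_inv_smul_of_differentiable_on_off_countable
        (R := R) (c := 0) (f := f) Set.countable_empty (by simpa using hR x hx)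
        hf.continuous.continuousOn fun y _ => hf y, div_eq_inv_mul]
  · intro x hx
    refine (ContinuousOn.circleIntegrable hR0 ?_)
    refine continuousOn_const.mul (ContinuousOn.smul (ContinuousOn.inv₀
      (continuous_id.sub continuous_const).continuousOn ?_)
      hf.continuous.continuousOn)
    exact fun z hz => sub_ne_zero.2 (hsphere z hz x hx)

theorem norm_divDiff_le {T : Finset ℂ} (hT : T.Nonempty) {f : ℂ → ℂ} (hf : Differentiable ℂ f)
    {r R K : ℝ} (hr : ∀ x ∈ T, ‖x‖ ≤ r) (hrR : r < R)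
    (hK : ∀ z ∈ sphere (0 : ℂ) R, ‖f z‖ ≤ K) :
    ‖divDiff T f‖ ≤ R * (K / (R - r) ^ T.card) := by
  obtain ⟨x₀, hx₀⟩ := hT
  have hR0 : 0 < R := ((norm_nonneg x₀).trans (hr x₀ hx₀)).trans_lt hrR
  rw [divDiff_eq_integral ⟨x₀, hx₀⟩ hf fun x hx => (hr x hx).trans_lt hrR]
  refine circleIntegral.norm_two_pi_i_inv_smul_integral_le_of_norm_le_const hR0.le fun z hz => ?_
  rw [norm_div, norm_prod]
  have hK0 : 0 ≤ K := (norm_nonneg _).trans (hK z hz)
  refine div_le_div₀ hK0 (hK z hz) (pow_pos (sub_pos.2 hrR) _) ?_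
  rw [← Finset.prod_const]
  refine Finset.prod_le_prod (fun _ _ => (sub_pos.2 hrR).le) fun x hx => ?_
  rw [mem_sphere_zero_iff_norm] at hz
  linarith [norm_sub_norm_le z x, hr x hx]

/-- The image of a set of Gaussian integers. -/
def toPoints (T : Finset ℤ[i]) : Finset ℂ := T.image GaussianInt.toComplex

theorem card_toPoints (T : Finset ℤ[i]) : (toPoints T).card = T.card :=
  Finset.card_image_of_injective _ GaussianInt.toComplex_injective

theorem norm_le_of_mem_toPoints {T : Finset ℤ[i]} {r : ℝ} (hT : T ⊆ gdisc r) {x : ℂ}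
    (hx : x ∈ toPoints T) : ‖x‖ ≤ r := by
  obtain ⟨u, hu, rfl⟩ := Finset.mem_image.1 hx
  exact mem_gdisc.1 (hT hu)

/-- The growth condition constant. -/
def growthC : ℝ := Real.exp 40000

theorem two_le_growthC : 2 ≤ growthC := by
  have := Real.add_one_le_exp (40000 : ℝ)
  rw [growthC]
  linarith

/-- The type allowed. -/
def gelfondType : ℝ := 1 / (2 * (growthC + 1) ^ 2)

theorem gelfondType_pos : 0 < gelfondType := by
  have := two_le_growthC
  rw [gelfondType]
  positivity

theorem two_mul_gelfondType (t : ℝ) : 2 * gelfondType * ((growthC + 1) * t) ^ 2 = t ^ 2 := by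
  have := two_le_growthC
  rw [gelfondType]
  field_simp

theorem exp_le_growthC_pow {r : ℝ} {m : ℕ} (hm : r ^ 2 / 8 ≤ (m : ℝ)) :
    Real.exp (5000 * r ^ 2) ≤ growthC ^ m := by
  rw [growthC, ← Real.exp_nat_mul]
  exact Real.exp_le_exp.2 (by linarith)

/-- **The divided differences vanish.** -/
theorem divDiff_eq_zero {f : ℂ → ℂ} {C : ℝ} (hf : Differentiable ℂ f)
    (hC : ∀ z, ‖f z‖ ≤ C * Real.exp (gelfondType * ‖z‖ ^ 2))
    (hint : ∀ u : ℤ[i], ∃ v : ℤ[i], f u = (v : ℂ)) :
    ∀ᶠ r : ℕ in atTop, ∀ T : Finset ℤ[i], gdisc ((r : ℝ) - 1) ⊆ T → T ⊆ gdisc r →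
      divDiff (toPoints T) f = 0 := by
  have hC0 : 0 ≤ C := by
    have := (norm_nonneg _).trans (hC 0)
    simpa using this
  have hc := two_le_growthC
  have hev : ∀ᶠ r : ℕ in atTop, C * (growthC + 1) * Real.exp (-(r : ℝ)) < 1 := by
    have h := ((Real.tendsto_exp_neg_atTop_nhds_zero.comp
      (tendsto_natCast_atTop_atTop (R := ℝ))).const_mul (C * (growthC + 1)))
    rw [mul_zero] at h
    exact h.eventually (gt_mem_nhds one_pos)
  filter_upwards [hev, eventually_ge_atTop 192] with r hsmall hr T hlo hhi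
  have hr1 : (1 : ℝ) ≤ r := by
    have : (192 : ℝ) ≤ r := by exact_mod_cast hr
    linarith
  have hr192 : (192 : ℝ) ≤ r := by exact_mod_cast hr
  have hn : ((gdisc r).card : ℝ) ≤ T.card + 24 * r := by
    have h := card_gdisc_add_one (R := (r : ℝ) - 1) (by linarith)
    rw [sub_add_cancel] at h
    have := Nat.cast_le (α := ℝ).2 (Finset.card_le_card hlo)
    linarith
  have hm : (r : ℝ) ^ 2 / 8 ≤ T.card := by
    have := le_card_gdisc r
    nlinarith
  have hne : (toPoints T).Nonempty := by
    rw [← Finset.card_pos, card_toPoints]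
    have : (0 : ℝ) < (T.card : ℝ) := lt_of_lt_of_le (by positivity) hm
    exact_mod_cast this
  -- the scaled divided difference is a Gaussian integer
  obtain ⟨v, hv⟩ : ∃ v : ℤ[i], (denom r : ℂ) * divDiff (toPoints T) f = (v : ℂ) := by
    choose q hq using fun k : T => prod_dvd_denom hhi k.2
    choose w hw using hint
    refine ⟨∑ k : T, q k * w k, ?_⟩
    rw [divDiff, toPoints, Finset.sum_image GaussianInt.toComplex_injective.injOn,
      Finset.mul_sum, map_sum, ← Finset.sum_coe_sort T]
    refine Finset.sum_congr rfl fun k _ => ?_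
    rw [← Finset.image_erase GaussianInt.toComplex_injective,
      Finset.prod_image GaussianInt.toComplex_injective.injOn, map_mul, hw,
      show (denom r : ℂ) = _ from congrArg GaussianInt.toComplex (hq k), map_mul, map_prod]
    have hp : ∏ x ∈ T.erase k, (((k : ℤ[i]) : ℂ) - (x : ℂ)) ≠ 0 :=
      Finset.prod_ne_zero_iff.2 fun x hx => sub_ne_zero.2 fun e =>
        Finset.ne_of_mem_erase hx (GaussianInt.toComplex_inj.1 e).symm
    simp only [map_sub]
    field_simp
  have hbound : ‖(v : ℂ)‖ < 1 := by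
    rw [← hv, norm_mul]
    set R := (growthC + 1) * (r : ℝ) with hR
    have hRr : R - r = growthC * r := by rw [hR]; ring
    have hd := norm_divDiff_le hne hf (r := r) (R := R)
      (K := C * Real.exp ((r : ℝ) ^ 2)) (fun x hx => norm_le_of_mem_toPoints hhi hx)
      (by nlinarith) (fun z hz => (hC z).trans (mul_le_mul_of_nonneg_left (Real.exp_le_exp.2 (by
        rw [mem_sphere_zero_iff_norm.1 hz, ← two_mul_gelfondType (r : ℝ), hR]
        nlinarith [gelfondType_pos, sq_nonneg ((growthC + 1) * (r : ℝ))])) hC0))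
    rw [card_toPoints, hRr, mul_pow] at hd
    have hpow : (r : ℝ) ^ (gdisc r).card ≤ (r : ℝ) ^ T.card * Real.exp (24 * (r : ℝ) ^ 2) := by
      have hle : (gdisc r).card ≤ T.card + 24 * r := by exact_mod_cast hn
      refine (pow_le_pow_right₀ hr1 hle).trans ?_
      rw [pow_add]
      refine mul_le_mul_of_nonneg_left ?_ (by positivity)
      calc (r : ℝ) ^ (24 * r) ≤ Real.exp r ^ (24 * r) :=
            pow_le_pow_left₀ (by positivity) (by linarith [Real.add_one_le_exp (r : ℝ)]) _
        _ = Real.exp (24 * (r : ℝ) ^ 2) := by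
            rw [← Real.exp_nat_mul]
            push_cast
            ring_nf
    have hden := (norm_denom_le (show 1 ≤ r by omega)).trans
      (mul_le_mul_of_nonneg_right hpow (Real.exp_pos _).le)
    refine lt_of_le_of_lt (mul_le_mul hden hd (norm_nonneg _) (by positivity)) ?_
    have hcm : 0 < growthC ^ T.card := by positivity
    have hrm : 0 < (r : ℝ) ^ T.card := by positivity
    have hmain : Real.exp (4633 * (r : ℝ) ^ 2) / growthC ^ T.card * r ≤ Real.exp (-(r : ℝ)) := by
      have h1 := exp_le_growthC_pow hm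
      have h2 : (r : ℝ) ≤ Real.exp r := by linarith [Real.add_one_le_exp (r : ℝ)]
      calc Real.exp (4633 * (r : ℝ) ^ 2) / growthC ^ T.card * r
          ≤ Real.exp (4633 * (r : ℝ) ^ 2) / Real.exp (5000 * (r : ℝ) ^ 2) * Real.exp r := by gcongr
        _ ≤ Real.exp (-(r : ℝ)) := by
            rw [← Real.exp_sub, ← Real.exp_add]
            exact Real.exp_le_exp.2 (by nlinarith)
    calc (r : ℝ) ^ T.card * Real.exp (24 * (r : ℝ) ^ 2) * Real.exp (4608 * (r : ℝ) ^ 2) *
          (R * (C * Real.exp ((r : ℝ) ^ 2) / (growthC ^ T.card * (r : ℝ) ^ T.card)))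
        = C * (growthC + 1) * (Real.exp (4633 * (r : ℝ) ^ 2) / growthC ^ T.card * r) := by
          rw [show Real.exp (4633 * (r : ℝ) ^ 2) = Real.exp (24 * (r : ℝ) ^ 2) *
            Real.exp (4608 * (r : ℝ) ^ 2) * Real.exp ((r : ℝ) ^ 2) by
              rw [← Real.exp_add, ← Real.exp_add]; ring_nf, hR]
          field_simp
      _ ≤ C * (growthC + 1) * Real.exp (-(r : ℝ)) :=
          mul_le_mul_of_nonneg_left hmain (mul_nonneg hC0 (by linarith))
      _ < 1 := hsmall
  have hv0 : v = 0 := by
    by_contra hv0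
    exact (one_le_norm hv0).not_gt hbound
  rw [hv0, map_zero, mul_eq_zero] at hv
  refine hv.resolve_left ?_
  rw [GaussianInt.toComplex_eq_zero, denom, centralProd]
  exact mul_ne_zero (Finset.prod_ne_zero_iff.2 fun w hw => Finset.ne_of_mem_erase hw)
    (pow_ne_zero _ (Nat.cast_ne_zero.2
      (Finset.prod_ne_zero_iff.2 fun s _ => primorial_ne_zero _)))

/-- A function of small type vanishing on `ℤ[i]` is zero. -/
theorem eq_zero_of_zeros {g : ℂ → ℂ} {C : ℝ} (hg : Differentiable ℂ g)
    (hC : ∀ z, ‖g z‖ ≤ C * Real.exp (2 * gelfondType * ‖z‖ ^ 2))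
    (hzero : ∀ u : ℤ[i], g u = 0) (w : ℂ) : g w = 0 := by
  by_cases hw : ∃ u : ℤ[i], (u : ℂ) = w
  · obtain ⟨u, rfl⟩ := hw
    exact hzero u
  have hC0 : 0 ≤ C := by
    have := (norm_nonneg _).trans (hC 0)
    simpa using this
  have hc := two_le_growthC
  refine norm_le_zero_iff.1 (ge_of_tendsto
    (f := fun r : ℕ => 2 * C * Real.exp (-(r : ℝ))) (x := atTop) ?_ ?_)
  · simpa using ((Real.tendsto_exp_neg_atTop_nhds_zero.comp
      (tendsto_natCast_atTop_atTop (R := ℝ))).const_mul (2 * C))
  filter_upwards [eventually_ge_atTop (max ⌈‖w‖⌉₊ 1)] with r hr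
  have hr1 : (1 : ℝ) ≤ r := Nat.one_le_cast.2 (le_of_max_le_right hr)
  have hwr : ‖w‖ ≤ r := (Nat.le_ceil _).trans (Nat.cast_le.2 (le_of_max_le_left hr))
  set T := insert w (toPoints (gdisc r)) with hT
  have hwn : w ∉ toPoints (gdisc r) := fun h => by
    obtain ⟨u, -, rfl⟩ := Finset.mem_image.1 h
    exact hw ⟨u, rfl⟩
  set n := (gdisc r).card with hn
  have hval : divDiff T g = g w / ∏ x ∈ toPoints (gdisc r), (w - x) := by
    rw [divDiff, hT, Finset.sum_insert hwn, Finset.erase_insert hwn, add_eq_left]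
    refine Finset.sum_eq_zero fun x hx => ?_
    obtain ⟨u, -, rfl⟩ := Finset.mem_image.1 hx
    rw [hzero, zero_div]
  have hp : ∏ x ∈ toPoints (gdisc r), (w - x) ≠ 0 :=
    Finset.prod_ne_zero_iff.2 fun x hx => sub_ne_zero.2 fun e => hwn (e ▸ hx)
  set R := (growthC + 1) * (r : ℝ) with hR
  have hd := norm_divDiff_le (T := T) (Finset.insert_nonempty _ _) hg (r := r) (R := R)
    (K := C * Real.exp ((r : ℝ) ^ 2))
    (fun x hx => by
      rcases Finset.mem_insert.1 hx with rfl | h
      · exact hwr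
      · exact norm_le_of_mem_toPoints subset_rfl h)
    (by nlinarith)
    (fun z hz => (hC z).trans_eq (by
      rw [mem_sphere_zero_iff_norm.1 hz, hR, two_mul_gelfondType]))
  rw [hT, Finset.card_insert_of_notMem hwn, card_toPoints, ← hn, ← hT, hval, norm_div,
    div_le_iff₀ (norm_pos_iff.2 hp), show R - r = growthC * r by rw [hR]; ring] at hd
  have hprod : ‖∏ x ∈ toPoints (gdisc r), (w - x)‖ ≤ (2 * (r : ℝ)) ^ n := by
    rw [norm_prod, hn, ← card_toPoints, ← Finset.prod_const]
    refine Finset.prod_le_prod (fun _ _ => norm_nonneg _) fun x hx => ?_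
    linarith [norm_sub_le w x, norm_le_of_mem_toPoints subset_rfl hx]
  refine (hd.trans (mul_le_mul_of_nonneg_left hprod (by positivity))).trans ?_
  have hnn := le_card_gdisc r
  rw [← hn] at hnn
  have key : Real.exp ((r : ℝ) ^ 2) * (2 / growthC) ^ n ≤ Real.exp (-(r : ℝ)) := by
    have h2 : (2 : ℝ) ≤ Real.exp 1 := by linarith [Real.add_one_le_exp (1 : ℝ)]
    calc Real.exp ((r : ℝ) ^ 2) * (2 / growthC) ^ n
        ≤ Real.exp ((r : ℝ) ^ 2) * (Real.exp 1 / growthC) ^ n := by gcongr
      _ ≤ Real.exp (-(r : ℝ)) := by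
          rw [growthC, ← Real.exp_sub, ← Real.exp_nat_mul, ← Real.exp_add]
          exact Real.exp_le_exp.2 (by nlinarith)
  calc R * (C * Real.exp ((r : ℝ) ^ 2) / (growthC * r) ^ (n + 1)) * (2 * (r : ℝ)) ^ n
      = C * ((growthC + 1) / growthC) * (Real.exp ((r : ℝ) ^ 2) * (2 / growthC) ^ n) := by
        rw [hR, mul_pow, mul_pow, div_pow]
        field_simp
        ring
    _ ≤ C * 2 * Real.exp (-(r : ℝ)) := by
        refine mul_le_mul (mul_le_mul_of_nonneg_left ?_ hC0) key (by positivity) (by positivity)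
        rw [div_le_iff₀ (by linarith)]
        linarith
    _ = 2 * C * Real.exp (-(r : ℝ)) := by ring

/-- A polynomial is dominated by any Gaussian type. -/
theorem exists_polynomial_bound {a : ℝ} (ha : 0 < a) (P : Polynomial ℂ) :
    ∃ K : ℝ, ∀ z : ℂ, ‖P.eval z‖ ≤ K * Real.exp (a * ‖z‖ ^ 2) := by
  refine ⟨∑ i ∈ range (P.natDegree + 1), ‖P.coeff i‖ * (1 + (i.factorial : ℝ) / a ^ i),
    fun z => ?_⟩
  rw [Polynomial.eval_eq_sum_range, Finset.sum_mul]
  refine (norm_sum_le _ _).trans (Finset.sum_le_sum fun i _ => ?_)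
  rw [norm_mul, norm_pow, mul_assoc]
  refine mul_le_mul_of_nonneg_left ?_ (norm_nonneg _)
  have hx := norm_nonneg z
  have h1 := Real.pow_div_factorial_le_exp (a * ‖z‖ ^ 2) (by positivity) i
  rw [div_le_iff₀ (Nat.cast_pos.2 i.factorial_pos), mul_pow] at h1
  have h2 : ‖z‖ ^ i ≤ 1 + (‖z‖ ^ 2) ^ i := by
    rcases le_total ‖z‖ 1 with h | h
    · exact (pow_le_one₀ hx h).trans (le_add_of_nonneg_right (by positivity))
    · rw [← pow_mul]
      exact (pow_le_pow_right₀ h (by omega)).trans (le_add_of_nonneg_left zero_le_one)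
  have h3 : (‖z‖ ^ 2) ^ i ≤ (i.factorial : ℝ) / a ^ i * Real.exp (a * ‖z‖ ^ 2) := by
    rw [div_mul_eq_mul_div, le_div_iff₀ (pow_pos ha i)]
    linarith
  have h4 := Real.one_le_exp (show 0 ≤ a * ‖z‖ ^ 2 by positivity)
  rw [add_mul, one_mul]
  linarith

/-- **Gelfond's theorem.** -/
theorem isPolynomial {f : ℂ → ℂ} {C : ℝ} (hf : Differentiable ℂ f)
    (hC : ∀ z, ‖f z‖ ≤ C * Real.exp (gelfondType * ‖z‖ ^ 2))
    (hint : ∀ u : ℤ[i], ∃ v : ℤ[i], f u = (v : ℂ)) :
    ∃ P : Polynomial ℂ, ∀ z, f z = P.eval z := by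
  obtain ⟨r₀, hr₀⟩ := (eventually_atTop.1 (divDiff_eq_zero hf hC hint))
  set r₁ := max r₀ 1 with hr1
  set P := Lagrange.interpolate (toPoints (gdisc r₁)) id f with hP
  have hstep : ∀ r, r₁ ≤ r → Lagrange.interpolate (toPoints (gdisc r)) id f = P := by
    intro r hr
    induction r, hr using Nat.le_induction with
    | base => rfl
    | succ r hr ih =>
      suffices H : ∀ S : Finset ℤ[i], gdisc (r : ℝ) ⊆ S → S ⊆ gdisc ((r + 1 : ℕ) : ℝ) →
          Lagrange.interpolate (toPoints S) id f = P from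
        H _ (gdisc_mono (by push_cast; linarith)) subset_rfl
      intro S
      induction S using Finset.strongInduction with
      | _ S IH =>
        intro hlo hhi
        by_cases hS : S = gdisc (r : ℝ)
        · rw [hS, ih]
        obtain ⟨x, hxS, hx⟩ := Finset.exists_of_ssubset (hlo.ssubset_of_ne (Ne.symm hS))
        have hlo' : gdisc (r : ℝ) ⊆ S.erase x := fun u hu =>
          Finset.mem_erase.2 ⟨fun e => hx (e ▸ hu), hlo hu⟩
        rw [← IH _ (Finset.erase_ssubset hxS) hlo' ((Finset.erase_subset _ _).trans hhi)]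
        have hzero := hr₀ (r + 1) (by omega) S (by push_cast; rwa [add_sub_cancel_right]) hhi
        set s := toPoints S with hs
        have hinj : Set.InjOn id (s : Set ℂ) := Function.injective_id.injOn
        set Q := Lagrange.interpolate s id f with hQ
        have hQdeg : Q.degree < s.card := Lagrange.degree_interpolate_lt _ hinj
        have hQc : Q.coeff (s.card - 1) = 0 := by
          rw [Lagrange.coeff_eq_sum hinj hQdeg, ← hzero, divDiff]
          refine Finset.sum_congr rfl fun z hz => ?_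
          rw [hQ, Lagrange.eval_interpolate_at_node _ hinj hz]
          simp
        have hsub : toPoints (S.erase x) ⊆ s :=
          Finset.image_subset_image (Finset.erase_subset _ _)
        refine Lagrange.eq_interpolate_of_eval_eq _ Function.injective_id.injOn ?_ fun z hz => ?_
        · rw [card_toPoints, Finset.card_erase_of_mem hxS, ← card_toPoints, ← hs,
            Polynomial.degree_lt_iff_coeff_zero]
          intro m hm
          rcases hm.eq_or_lt with h | h
          · rw [← h]; exact hQc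
          · exact Polynomial.coeff_eq_zero_of_degree_lt
              (hQdeg.trans_le (by exact_mod_cast (by omega : s.card ≤ m)))
        · exact Lagrange.eval_interpolate_at_node _ hinj (hsub hz)
  refine ⟨P, fun z => ?_⟩
  obtain ⟨K, hK⟩ := exists_polynomial_bound gelfondType_pos P
  have hK0 : 0 ≤ C + K := by
    have h1 := (norm_nonneg _).trans (hC 0)
    have h2 := (norm_nonneg _).trans (hK 0)
    simp at h1 h2
    linarith
  refine sub_eq_zero.1 (eq_zero_of_zeros (g := fun z => f z - P.eval z) (C := C + K)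
    (hf.sub P.differentiable) (fun z => ?_) (fun u => ?_) z)
  · refine ((norm_sub_le _ _).trans (add_le_add (hC z) (hK z))).trans ?_
    rw [← add_mul]
    exact mul_le_mul_of_nonneg_left (Real.exp_le_exp.2 (by
      nlinarith [gelfondType_pos, sq_nonneg ‖z‖])) hK0
  · set r := max r₁ ⌈‖(u : ℂ)‖⌉₊
    have hu : (u : ℂ) ∈ toPoints (gdisc r) := Finset.mem_image_of_mem _ (mem_gdisc.2
      ((Nat.le_ceil _).trans (Nat.cast_le.2 (le_max_right _ _))))
    rw [sub_eq_zero, ← hstep r (le_max_left _ _),
      ← Lagrange.eval_interpolate_at_node (v := id) f Function.injective_id.injOn hu]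
    rfl

end FA.GelfondGauss

end
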